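/-
CELL-S (S33), node GS-CLOSURE-GENERIC, part 1 (helper5): **closure of stable function orders under
equivariant injections, in the generic frame** of `GH/N0/Order.IsStableOrder`
(`R` a PID, `F = Frac R ⊆ K`, `G` any group acting on the field `K` with fixed field `F`,
`H ⊆ Map(M, K)` an `R`-order).  This is the generic-frame version of helper57's
`GH/Closure/{Basic,SubProd}` (which is specific to `ℤ_(ℓ) ⊆ ℚ ⊆ ℚ̄`, `G_ℚ`).

Contents: precomposition homs, the two-variable images `T2`/`Rep2`, Δ-stability through `T2`,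
`isStableOrder_map` (SUB / ISO), finiteness of images and of preimages, the predicate
`IsLocalAt 𝔫 H` (`f x - f 0 ∈ 𝔫` for all `f ∈ H`) and its inheritance along `map`/`comap`.
-/
import Mathlib
import Fermat.Agent.GH.N0.Order

set_option autoImplicit false
set_option linter.unusedSectionVars false
set_option linter.unusedVariables false

noncomputable section

namespace Fermat.Agent.GS.ClosureW

open Fermat.Agent.GH.N0

section Precomp

variable (S A : Type*) [CommSemiring S] [Semiring A] [Algebra S A] {X Y Z : Type*}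

/-- precomposition with `φ : X → Y` as an algebra hom `(Y → A) → (X → A)`. -/
def precomp (φ : X → Y) : (Y → A) →ₐ[S] (X → A) :=
  AlgHom.pi (fun x => Pi.evalAlgHom S (fun _ => A) (φ x))

@[simp]
theorem precomp_apply (φ : X → Y) (f : Y → A) (x : X) : precomp S A φ f x = f (φ x) := rfl

theorem precomp_injective {φ : X → Y} (hφ : Function.Surjective φ) :
    Function.Injective (precomp S A φ) := by
  intro f g hfg
  funext y
  obtain ⟨x, rfl⟩ := hφ y
  exact congrFun hfg x

end Precomp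

section TwoVar

variable {R K : Type*} [CommRing R] [Field K] [Algebra R K] {M M' : Type*}

/-- the image of `H ⊗ H'` in the functions on `M × M'`. -/
def T2 (H : Subalgebra R (M → K)) (H' : Subalgebra R (M' → K)) :
    Subalgebra R (M × M' → K) :=
  H.map (precomp R K Prod.fst) ⊔ H'.map (precomp R K Prod.snd)

/-- `Φ` is a finite sum of pure tensors (arbitrary finite index type). -/
def Rep2 (H : Subalgebra R (M → K)) (H' : Subalgebra R (M' → K))
    (Φ : M × M' → K) : Prop :=
  ∃ (ι : Type) (_ : Fintype ι) (a : ι → H) (b : ι → H'),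
    ∀ x y, Φ (x, y) = ∑ i, ((a i : M → K) x) * ((b i : M' → K) y)

variable {H : Subalgebra R (M → K)} {H' : Subalgebra R (M' → K)}

theorem rep2_iff_fin {Φ : M × M' → K} :
    Rep2 H H' Φ ↔ ∃ (n : ℕ) (a : Fin n → H) (b : Fin n → H'),
      ∀ x y, Φ (x, y) = ∑ i, ((a i : M → K) x) * ((b i : M' → K) y) := by
  constructor
  · rintro ⟨ι, _, a, b, h⟩
    refine ⟨Fintype.card ι, a ∘ (Fintype.equivFin ι).symm, b ∘ (Fintype.equivFin ι).symm, ?_⟩
    intro x y
    rw [h x y]
    exact (Equiv.sum_comp (Fintype.equivFin ι).symm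
      (fun i => ((a i : M → K) x) * ((b i : M' → K) y))).symm
  · rintro ⟨n, a, b, h⟩
    exact ⟨Fin n, inferInstance, a, b, h⟩

theorem Rep2.add {Φ Ψ : M × M' → K} (hF : Rep2 H H' Φ) (hG : Rep2 H H' Ψ) :
    Rep2 H H' (Φ + Ψ) := by
  obtain ⟨ι, _, a, b, h⟩ := hF
  obtain ⟨κ, _, c, d, h'⟩ := hG
  refine ⟨ι ⊕ κ, inferInstance, Sum.elim a c, Sum.elim b d, ?_⟩
  intro x y
  rw [Pi.add_apply, h x y, h' x y, Fintype.sum_sum_type]
  simp

theorem Rep2.mul {Φ Ψ : M × M' → K} (hF : Rep2 H H' Φ) (hG : Rep2 H H' Ψ) :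
    Rep2 H H' (Φ * Ψ) := by
  obtain ⟨ι, _, a, b, h⟩ := hF
  obtain ⟨κ, _, c, d, h'⟩ := hG
  refine ⟨ι × κ, inferInstance, fun p => a p.1 * c p.2, fun p => b p.1 * d p.2, ?_⟩
  intro x y
  rw [Pi.mul_apply, h x y, h' x y, Fintype.sum_prod_type, Finset.sum_mul_sum]
  refine Finset.sum_congr rfl fun i _ => Finset.sum_congr rfl fun j _ => ?_
  simp only [Subalgebra.coe_mul, Pi.mul_apply]
  ring

theorem Rep2.algMap (r : R) :
    Rep2 H H' (Algebra.algebraMap (R := R) (A := M × M' → K) r) := by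
  refine ⟨Unit, inferInstance, fun _ => Algebra.algebraMap (R := R) (A := H) r, fun _ => 1, ?_⟩
  intro x y
  simp [Algebra.algebraMap_eq_smul_one]

theorem Rep2.fst {f : M → K} (hf : f ∈ H) : Rep2 H H' (precomp R K Prod.fst f) :=
  ⟨Unit, inferInstance, fun _ => ⟨f, hf⟩, fun _ => 1, fun x y => by simp⟩

theorem Rep2.snd {f : M' → K} (hf : f ∈ H') : Rep2 H H' (precomp R K Prod.snd f) :=
  ⟨Unit, inferInstance, fun _ => 1, fun _ => ⟨f, hf⟩, fun x y => by simp⟩

theorem mem_T2_iff {Φ : M × M' → K} : Φ ∈ T2 H H' ↔ Rep2 H H' Φ := by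
  constructor
  · intro hF
    have hle : T2 H H' ≤
        { carrier := {Φ | Rep2 H H' Φ}
          mul_mem' := fun h1 h2 => Rep2.mul h1 h2
          add_mem' := fun h1 h2 => Rep2.add h1 h2
          algebraMap_mem' := fun r => Rep2.algMap r : Subalgebra R (M × M' → K) } := by
      refine sup_le ?_ ?_
      · rintro _ ⟨f, hf, rfl⟩
        exact Rep2.fst hf
      · rintro _ ⟨f, hf, rfl⟩
        exact Rep2.snd hf
    exact hle hF
  · rintro ⟨ι, _, a, b, h⟩
    have : Φ = ∑ i, precomp R K Prod.fst (a i : M → K) *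
        precomp R K Prod.snd (b i : M' → K) := by
      funext p
      obtain ⟨x, y⟩ := p
      rw [h x y, Finset.sum_apply]
      rfl
    rw [this]
    refine Subalgebra.sum_mem _ fun i _ => Subalgebra.mul_mem _ ?_ ?_
    · exact (le_sup_left : _ ≤ T2 H H') ⟨_, (a i).2, rfl⟩
    · exact (le_sup_right : _ ≤ T2 H H') ⟨_, (b i).2, rfl⟩

theorem Rep2.swap {Φ : M × M' → K} (h : Rep2 H H' Φ) :
    Rep2 H' H (fun p => Φ (p.2, p.1)) := by
  obtain ⟨ι, _, a, b, hab⟩ := h
  refine ⟨ι, inferInstance, b, a, fun x y => ?_⟩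
  show Φ (y, x) = _
  rw [hab y x]
  exact Finset.sum_congr rfl fun i _ => mul_comm _ _

end TwoVar

section Delta

variable {R K : Type*} [CommRing R] [Field K] [Algebra R K] {M : Type*} [AddCommGroup M]

/-- `f ↦ ((x, y) ↦ f (x + y))` as an algebra hom. -/
def addHom (R K M : Type*) [CommRing R] [Field K] [Algebra R K] [AddCommGroup M] :
    (M → K) →ₐ[R] (M × M → K) :=
  precomp R K (fun p : M × M => p.1 + p.2)

@[simp]
theorem addHom_apply (f : M → K) (x y : M) : addHom R K M f (x, y) = f (x + y) := rfl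

theorem delta_iff_T2 {H : Subalgebra R (M → K)} :
    (∀ f ∈ H, ∃ (n : ℕ) (a b : Fin n → H), ∀ x y : M,
      f (x + y) = ∑ i, ((a i : M → K) x) * ((b i : M → K) y)) ↔
    H ≤ (T2 H H).comap (addHom R K M) := by
  constructor
  · intro h f hf
    rw [Subalgebra.mem_comap, mem_T2_iff, rep2_iff_fin]
    obtain ⟨n, a, b, hab⟩ := h f hf
    exact ⟨n, a, b, fun x y => hab x y⟩
  · intro h f hf
    have := h hf
    rw [Subalgebra.mem_comap, mem_T2_iff, rep2_iff_fin] at this
    obtain ⟨n, a, b, hab⟩ := this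
    exact ⟨n, a, b, fun x y => hab x y⟩

end Delta

section Finite

variable {R K : Type*} [CommRing R] [Field K] [Algebra R K] {X Y : Type*}

theorem finite_map (H : Subalgebra R (X → K)) [Module.Finite R H]
    (φ : (X → K) →ₐ[R] (Y → K)) : Module.Finite R (H.map φ) := by
  let f : H →ₗ[R] ↥(H.map φ) :=
    LinearMap.codRestrict (Subalgebra.toSubmodule (H.map φ))
      (φ.toLinearMap ∘ₗ (Subalgebra.val H).toLinearMap) (fun h => ⟨h, h.2, rfl⟩)
  refine Module.Finite.of_surjective f ?_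
  rintro ⟨_, ⟨x, hx, rfl⟩⟩
  exact ⟨⟨x, hx⟩, rfl⟩

theorem finite_comap [IsNoetherianRing R] (H : Subalgebra R (X → K)) [Module.Finite R H]
    (φ : (Y → K) →ₐ[R] (X → K)) (hφ : Function.Injective φ) :
    Module.Finite R (H.comap φ) := by
  have : IsNoetherian R H := isNoetherian_of_isNoetherianRing_of_finite R H
  let g : ↥(H.comap φ) →ₗ[R] H :=
    LinearMap.codRestrict (Subalgebra.toSubmodule H)
      (φ.toLinearMap ∘ₗ (Subalgebra.val (H.comap φ)).toLinearMap) (fun h => h.2)
  refine Module.Finite.of_injective g ?_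
  intro a b hab
  apply Subtype.ext
  apply hφ
  exact congrArg Subtype.val hab

end Finite

section Local

variable {R K : Type*} [CommRing R] [Field K] [Algebra R K]
variable {M N Q : Type*} [AddCommGroup M] [AddCommGroup N] [AddCommGroup Q]

/-- **LOCAL**: all the functions of `H` are constant modulo `𝔫`
(instance: `𝔫` the maximal ideal of a valuation ring of `K` above `R`). -/
def IsLocalAt (𝔫 : Set K) (H : Subalgebra R (M → K)) : Prop :=
  ∀ f ∈ H, ∀ x : M, f x - f 0 ∈ 𝔫

theorem IsLocalAt.map {𝔫 : Set K} {H : Subalgebra R (M → K)} (h : IsLocalAt 𝔫 H) (j : N →+ M) :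
    IsLocalAt 𝔫 (H.map (precomp R K j)) := by
  rintro _ ⟨f, hf, rfl⟩ n
  show f (j n) - f (j 0) ∈ 𝔫
  rw [map_zero]
  exact h f hf (j n)

theorem IsLocalAt.comap {𝔫 : Set K} {H : Subalgebra R (M → K)} (h : IsLocalAt 𝔫 H) (π : M →+ Q)
    (hπ : Function.Surjective π) : IsLocalAt 𝔫 (H.comap (precomp R K π)) := by
  intro g hg z
  obtain ⟨x, rfl⟩ := hπ z
  have h1 : precomp R K π g ∈ H := hg
  have := h _ h1 x
  rw [precomp_apply, precomp_apply, map_zero] at this
  exact this

/-- an algebra generated by `𝔫`-valued functions is local, for `𝔫` an ideal of a subring `A ⊇ R`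
of `K` (stated for a subring `A`, an `A`-stable additive subgroup `𝔫 ⊆ A`, and generators with
values in `𝔫`). -/
theorem isLocalAt_adjoin (A : Subring K) (hRA : ∀ r : R, algebraMap R K r ∈ A)
    (𝔫 : AddSubgroup K) (h𝔫A : ∀ a ∈ A, ∀ c ∈ 𝔫, a * c ∈ 𝔫) (h𝔫le : ∀ c ∈ 𝔫, c ∈ A)
    (S : Set (M → K)) (hS : ∀ s ∈ S, ∀ x, s x ∈ 𝔫) :
    IsLocalAt (𝔫 : Set K) (Algebra.adjoin R S) := by
  -- every function of the adjoin is `A`-valued and constant mod `𝔫`
  have key : ∀ f ∈ Algebra.adjoin R S, (∀ x, f x ∈ A) ∧ ∀ x : M, f x - f 0 ∈ 𝔫 := by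
    intro f hf
    induction hf using Algebra.adjoin_induction with
    | mem s hs =>
      exact ⟨fun x => h𝔫le _ (hS s hs x), fun x => 𝔫.sub_mem (hS s hs x) (hS s hs 0)⟩
    | algebraMap r =>
      refine ⟨fun x => hRA r, fun x => ?_⟩
      rw [Pi.algebraMap_apply, Pi.algebraMap_apply, sub_self]
      exact 𝔫.zero_mem
    | add f g _ _ hf hg =>
      refine ⟨fun x => A.add_mem (hf.1 x) (hg.1 x), fun x => ?_⟩
      have : (f + g) x - (f + g) 0 = (f x - f 0) + (g x - g 0) := by
        simp only [Pi.add_apply]; ring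
      rw [this]
      exact 𝔫.add_mem (hf.2 x) (hg.2 x)
    | mul f g _ _ hf hg =>
      refine ⟨fun x => A.mul_mem (hf.1 x) (hg.1 x), fun x => ?_⟩
      have : (f * g) x - (f * g) 0 = f x * (g x - g 0) + g 0 * (f x - f 0) := by
        simp only [Pi.mul_apply]; ring
      rw [this]
      exact 𝔫.add_mem (h𝔫A _ (hf.1 x) _ (hg.2 x)) (h𝔫A _ (hg.1 0) _ (hf.2 x))
  exact fun f hf x => (key f hf).2 x

end Local

section Sub

variable {R : Type*} [CommRing R] [IsDomain R] [IsPrincipalIdealRing R]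
variable {F : Type*} [Field F] [Algebra R F] [IsFractionRing R F]
variable {K : Type*} [Field K] [Algebra F K] [Algebra R K] [IsScalarTower R F K]
variable {G : Type*} [Group G] [MulSemiringAction G K]
variable {M : Type*} [AddCommGroup M] [Finite M]
variable {N : Type*} [AddCommGroup N] [Finite N]
variable {act : G → M → M} {actN : G → N → N} {H : Subalgebra R (M → K)}

/-- **SUB / ISO.** restriction of a stable order along an equivariant injective additive map. -/
theorem isStableOrder_map (h : IsStableOrder F act H) (j : N →+ M)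
    (hj : Function.Injective j) (hjeq : ∀ (σ : G) (n : N), j (actN σ n) = act σ (j n)) :
    IsStableOrder F actN (H.map (precomp R K j)) where
  fixed := h.fixed
  act_zero := fun σ => hj (by rw [hjeq, map_zero, h.act_zero])
  equivariant := by
    rintro _ ⟨f, hf, rfl⟩ σ n
    show f (j (actN σ n)) = σ • (f (j n))
    rw [hjeq, h.equivariant f hf]
  fg := by
    have := h.fg
    exact finite_map H _
  sep := by
    intro n n' hne
    obtain ⟨f, hf, hfn⟩ := h.sep (j n) (j n') (fun h => hne (hj h))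
    exact ⟨precomp R K j f, ⟨f, hf, rfl⟩, hfn⟩
  delta := by
    rintro _ ⟨f, hf, rfl⟩
    obtain ⟨n, a, b, hab⟩ := h.delta f hf
    refine ⟨n, fun i => ⟨precomp R K j (a i), ⟨a i, (a i).2, rfl⟩⟩,
      fun i => ⟨precomp R K j (b i), ⟨b i, (b i).2, rfl⟩⟩, ?_⟩
    intro x y
    show f (j (x + y)) = ∑ i, (a i : M → K) (j x) * (b i : M → K) (j y)
    rw [map_add]
    exact hab (j x) (j y)

end Sub

end Fermat.Agent.GS.ClosureW
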