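/-
CELL-S (S33), node GS-CLOSURE-GENERIC, part 2 (helper5): **stable function orders pass to
QUOTIENTS, in the generic frame** of `GH/N0/Order.IsStableOrder` (`R` a PID, `F = Frac R ⊆ K` of
characteristic `0`, `G` any group acting on `K` with fixed field `F`).  Generic-frame port of
helper57's `GH/Closure/{Trace,Quot}` (specific to `ℤ_(ℓ) ⊆ ℚ ⊆ ℚ̄`, `G_ℚ`).

`π : M ↠ Q` equivariant, `H_Q := {g | g ∘ π ∈ H}`.  Separation by the trace over `ker π` +
Dedekind; Δ-stability by SATURATION: the `ker π`-invariant part of `H` is a saturated submodule of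
the finite free `R`-module `H`, a Smith-adapted basis is `K`-linearly independent as a family of
functions (`IsStableOrder.linearIndependent_coe`), so a two-variable sum of pure tensors which is
invariant in the first variable only involves the invariant basis vectors.
-/
import Fermat.Agent.GS.ClosureW.Basic

set_option autoImplicit false
set_option linter.unusedSectionVars false
set_option linter.unusedVariables false

noncomputable section

namespace Fermat.Agent.GS.ClosureW

open Fermat.Agent.GH.N0 Module

section Trace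

variable {K : Type*} [Field K] {M : Type*} [AddCommGroup M]

/-- the trace over a finite subgroup, `f ↦ (x ↦ ∑_{k ∈ Kr} f (x + k))`. -/
def trK (K : Type*) [Field K] (Kr : AddSubgroup M) [Fintype Kr] : (M → K) →ₗ[K] (M → K) where
  toFun f := fun x => ∑ k : Kr, f (x + k)
  map_add' f g := by
    funext x
    simp [Finset.sum_add_distrib]
  map_smul' c f := by
    funext x
    simp [Finset.mul_sum]

theorem trK_apply (Kr : AddSubgroup M) [Fintype Kr] (f : M → K) (x : M) :
    trK K Kr f x = ∑ k : Kr, f (x + k) := rfl

theorem trK_add_mem (Kr : AddSubgroup M) [Fintype Kr] (f : M → K) (x : M) {k : M}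
    (hk : k ∈ Kr) : trK K Kr f (x + k) = trK K Kr f x := by
  rw [trK_apply, trK_apply]
  refine Fintype.sum_equiv (Equiv.addLeft (⟨k, hk⟩ : Kr)) _ _ fun k' => ?_
  simp [add_assoc]

theorem trK_of_inv (Kr : AddSubgroup M) [Fintype Kr] {f : M → K}
    (hf : ∀ x, ∀ k ∈ Kr, f (x + k) = f x) (x : M) :
    trK K Kr f x = (Fintype.card Kr : K) * f x := by
  rw [trK_apply, Finset.sum_congr rfl fun (k : Kr) _ => hf x (k : M) k.2]
  simp

end Trace

section Desc

variable {K : Type*} {M Q : Type*} [AddCommGroup M] [AddCommGroup Q]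

/-- a function invariant under the kernel of a surjection descends. -/
theorem exists_desc {π : M →+ Q} (hπ : Function.Surjective π) (Φ : M → K)
    (hF : ∀ x, ∀ k ∈ π.ker, Φ (x + k) = Φ x) : ∃ g : Q → K, ∀ x, g (π x) = Φ x := by
  refine ⟨fun z => Φ (Function.surjInv hπ z), fun x => ?_⟩
  have h1 : π (Function.surjInv hπ (π x)) = π x := Function.surjInv_eq hπ (π x)
  have hk : Function.surjInv hπ (π x) - x ∈ π.ker := by
    rw [AddMonoidHom.mem_ker, map_sub, h1, sub_self]
  have := hF x _ hk
  rw [add_sub_cancel] at this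
  exact this

end Desc

section Inv

variable {R K : Type*} [CommRing R] [Field K] [Algebra R K] {M : Type*} [AddCommGroup M]

/-- the `Kr`-invariant functions, as a subalgebra. -/
def invAlg (R K : Type*) [CommRing R] [Field K] [Algebra R K] (Kr : AddSubgroup M) :
    Subalgebra R (M → K) where
  carrier := {f | ∀ x, ∀ k ∈ Kr, f (x + k) = f x}
  mul_mem' := by
    intro f g hf hg x k hk
    rw [Pi.mul_apply, Pi.mul_apply, hf x k hk, hg x k hk]
  add_mem' := by
    intro f g hf hg x k hk
    rw [Pi.add_apply, Pi.add_apply, hf x k hk, hg x k hk]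
  algebraMap_mem' := by
    intro r x k hk
    rfl

theorem mem_invAlg {Kr : AddSubgroup M} {f : M → K} :
    f ∈ invAlg R K Kr ↔ ∀ x, ∀ k ∈ Kr, f (x + k) = f x := Iff.rfl

end Inv

section Order

variable {R : Type*} [CommRing R] [IsDomain R] [IsPrincipalIdealRing R]
variable {F : Type*} [Field F] [Algebra R F] [IsFractionRing R F]
variable {K : Type*} [Field K] [Algebra F K] [Algebra R K] [IsScalarTower R F K]
variable {G : Type*} [Group G] [MulSemiringAction G K]
variable {M : Type*} [AddCommGroup M] [Finite M]
variable {act : G → M → M} {H : Subalgebra R (M → K)}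

/-- the values of the functions of `H` are integral over `R`. -/
theorem isIntegral_apply (h : IsStableOrder F act H) {f : M → K} (hf : f ∈ H) (x : M) :
    IsIntegral R (f x) := by
  have := h.fg
  exact (IsIntegral.of_finite R (⟨f, hf⟩ : H)).map (evPt H.val x)

/-- an element of `K` fixed by `G` and integral over `R` lies in `R`. -/
theorem exists_algebraMap_eq_of_fixed (h : IsStableOrder F act H) {c : K}
    (hfix : ∀ σ : G, σ • c = c) (hint : IsIntegral R c) : ∃ r : R, algebraMap R K r = c := by
  obtain ⟨q, hq⟩ := h.fixed _ hfix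
  rw [← hq] at hint
  have hq' : IsIntegral R q := (isIntegral_algebraMap_iff (algebraMap F K).injective).mp hint
  obtain ⟨r, hr⟩ := IsIntegrallyClosed.isIntegral_iff.mp hq'
  exact ⟨r, by rw [IsScalarTower.algebraMap_apply R F K, hr, hq]⟩

/-- **the trace maps `H` into `H`.** -/
theorem trK_mem (h : IsStableOrder F act H) (Kr : AddSubgroup M) [Fintype Kr]
    (hK : ∀ (σ : G), ∀ k ∈ Kr, act σ k ∈ Kr) {f : M → K} (hf : f ∈ H) : trK K Kr f ∈ H := by
  obtain ⟨n, a, b, hab⟩ := h.delta f hf
  have hc : ∀ i, ∃ r : R, algebraMap R K r = ∑ k : Kr, (b i : M → K) k := by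
    intro i
    apply exists_algebraMap_eq_of_fixed h
    · intro σ
      rw [Finset.smul_sum]
      have hbij : Function.Bijective (fun k : Kr => (⟨act σ k, hK σ k k.2⟩ : Kr)) := by
        apply Finite.injective_iff_bijective.mp
        intro k k' hkk
        exact Subtype.ext (h.act_injective σ (congrArg Subtype.val hkk))
      rw [← Function.Bijective.sum_comp hbij (fun k : Kr => (b i : M → K) k)]
      refine Finset.sum_congr rfl fun k _ => ?_
      exact (h.equivariant _ (b i).2 σ k).symm
    · exact IsIntegral.sum _ fun k _ => isIntegral_apply h (b i).2 k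
  choose r hr using hc
  have : trK K Kr f = ∑ i, r i • (a i : M → K) := by
    funext x
    rw [trK_apply, Finset.sum_apply]
    simp only [hab, Pi.smul_apply, Algebra.smul_def, hr]
    rw [Finset.sum_comm]
    refine Finset.sum_congr rfl fun i _ => ?_
    rw [Finset.sum_mul]
    refine Finset.sum_congr rfl fun k _ => ?_
    ring
  rw [this]
  exact Subalgebra.sum_mem _ fun i _ => Subalgebra.smul_mem _ (a i).2 _

/-- **Dedekind separation**: fibre sums over two different cosets of `Kr` are separated by `H`. -/
theorem exists_trK_ne (h : IsStableOrder F act H) (Kr : AddSubgroup M) [Fintype Kr]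
    {x y : M} (hxy : x - y ∉ Kr) : ∃ f ∈ H, trK K Kr f x ≠ trK K Kr f y := by
  classical
  by_contra hcon
  push Not at hcon
  let χ : M → (H →* K) := fun u =>
    { toFun := fun h => (h : M → K) u
      map_one' := rfl
      map_mul' := fun _ _ => rfl }
  have hχ : Function.Injective χ := by
    intro u v huv
    by_contra hne
    obtain ⟨f, hf, hfuv⟩ := h.sep u v hne
    exact hfuv (DFunLike.congr_fun huv ⟨f, hf⟩)
  have hli := (linearIndependent_monoidHom H K).comp χ hχ
  let g : Kr ⊕ Kr → M := Sum.elim (fun k => x + k) (fun k => y + k)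
  have hg : Function.Injective g := by
    rintro (k | k) (k' | k') h
    · have h' : x + (k : M) = x + k' := h
      rw [Subtype.ext (add_left_cancel h')]
    · exfalso
      have h' : x + (k : M) = y + k' := h
      apply hxy
      have : x - y = (k' : M) - k := by
        rw [sub_eq_sub_iff_add_eq_add, h', add_comm]
      rw [this]
      exact Kr.sub_mem k'.2 k.2
    · exfalso
      have h' : y + (k : M) = x + k' := h
      apply hxy
      have : x - y = (k : M) - k' := by
        rw [sub_eq_sub_iff_add_eq_add, ← h', add_comm]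
      rw [this]
      exact Kr.sub_mem k.2 k'.2
    · have h' : y + (k : M) = y + k' := h
      rw [Subtype.ext (add_left_cancel h')]
  have hli2 := hli.comp g hg
  have hsum : ∑ j : Kr ⊕ Kr, (Sum.elim (fun _ => (1 : K)) (fun _ => (-1 : K)) j) •
      (((χ (g j) : H →* K) : H → K)) = 0 := by
    funext h
    rw [Fintype.sum_sum_type]
    simp only [Sum.elim_inl, Sum.elim_inr, one_smul, neg_smul, Finset.sum_neg_distrib,
      Pi.add_apply, Pi.neg_apply, Finset.sum_apply, Pi.zero_apply]
    have := hcon h h.2
    rw [trK_apply, trK_apply] at this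
    show ∑ k : Kr, (h : M → K) (x + k) + -∑ k : Kr, (h : M → K) (y + k) = 0
    rw [this, add_neg_cancel]
  have h0 := Fintype.linearIndependent_iff.1 hli2 _ hsum (Sum.inl 0)
  simp at h0

/-- **KEY (saturation).**  A sum of pure tensors in `H ⊗ H'` which is `Kr`-invariant in the first
variable is a sum of pure tensors in `(H ⊓ invariants) ⊗ H'`. -/
theorem rep2_inv [CharZero K] (h : IsStableOrder F act H)
    (Kr : AddSubgroup M) (hK : ∀ (σ : G), ∀ k ∈ Kr, act σ k ∈ Kr)
    {M' : Type*} (H' : Subalgebra R (M' → K)) {Φ : M × M' → K}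
    (hF : Rep2 H H' Φ) (hinv : ∀ x y, ∀ k ∈ Kr, Φ (x + k, y) = Φ (x, y)) :
    Rep2 (H ⊓ invAlg R K Kr) H' Φ := by
  classical
  have : Fintype Kr := Fintype.ofFinite Kr
  have := h.fg
  have := h.free
  have hRK : Function.Injective (algebraMap R K) := algebraMap_injective_of_tower R F K
  -- the invariant part as a submodule of `H`
  let 𝓘 : Submodule R H :=
    Submodule.comap (Subalgebra.val H).toLinearMap (Subalgebra.toSubmodule (invAlg R K Kr))
  have h𝓘 : ∀ u : H, u ∈ 𝓘 ↔ (u : M → K) ∈ invAlg R K Kr := fun u => Iff.rfl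
  obtain ⟨n, snf⟩ := Submodule.smithNormalForm (Module.Free.chooseBasis R H) 𝓘
  set e : Module.Free.ChooseBasisIndex R H → (M → K) := fun i => ((snf.bM i : H) : M → K)
    with he
  -- `K`-linear independence of the basis as functions
  have hind : LinearIndependent K e := h.linearIndependent_coe snf.bM
  -- the basis vectors in the range of `f` are invariant
  have hs2 : ∀ s : Fin n, e (snf.f s) ∈ invAlg R K Kr := by
    intro s
    have h1 : (snf.bN s : H) ∈ 𝓘 := (snf.bN s).2
    rw [snf.snf s, h𝓘] at h1
    have ha : snf.a s ≠ 0 := by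
      intro h0
      have h2 : (snf.bN s : H) = 0 := by rw [snf.snf s, h0, zero_smul]
      have h3 : snf.bN s = 0 := Subtype.ext h2
      exact snf.bN.ne_zero s h3
    have ha1 : algebraMap R K (snf.a s) ≠ 0 := fun h0 =>
      ha (hRK (by rw [h0, map_zero]))
    intro x k hk
    have h4 := h1 x k hk
    simp only [Algebra.smul_def] at h4
    exact mul_left_cancel₀ ha1 h4
  -- coordinates of invariant elements vanish off the range of `f`
  have hs3 : ∀ u : H, (u : M → K) ∈ invAlg R K Kr → ∀ i, i ∉ Set.range snf.f →
      snf.bM.repr u i = 0 := by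
    intro u hh i hi
    exact snf.repr_eq_zero_of_notMem_range ⟨u, (h𝓘 u).2 hh⟩ hi
  -- (INV): an invariant `K`-combination of the basis only involves the range of `f`
  have hINV : ∀ c : Module.Free.ChooseBasisIndex R H → K,
      (∑ i, c i • e i) ∈ invAlg R K Kr → ∀ i, i ∉ Set.range snf.f → c i = 0 := by
    intro c hc i hi
    set φ : M → K := ∑ i, c i • e i with hφ
    -- `card • φ = trK φ = ∑ c_j • trK e_j`
    have h1 : (Fintype.card Kr : K) • φ = ∑ j, c j • trK K Kr (e j) := by
      have : trK K Kr φ = (Fintype.card Kr : K) • φ := by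
        funext x
        rw [trK_of_inv Kr hc x]
        rfl
      rw [← this, hφ, map_sum]
      refine Finset.sum_congr rfl fun j _ => ?_
      rw [map_smul]
    -- expand `trK e_j` in the basis
    obtain ⟨ρ, hρ, hρ0⟩ : ∃ ρ : Module.Free.ChooseBasisIndex R H →
        Module.Free.ChooseBasisIndex R H → K,
        (∀ j, trK K Kr (e j) = ∑ i, ρ j i • e i) ∧ ∀ j i, i ∉ Set.range snf.f → ρ j i = 0 := by
      refine ⟨fun j i => algebraMap R K
        (snf.bM.repr ⟨trK K Kr (e j), trK_mem h Kr hK (snf.bM j).2⟩ i), ?_, ?_⟩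
      · intro j
        set t : H := ⟨trK K Kr (e j), trK_mem h Kr hK (snf.bM j).2⟩ with ht
        have h3 : (t : M → K) = ((∑ i, snf.bM.repr t i • snf.bM i : H) : M → K) := by
          rw [snf.bM.sum_repr t]
        rw [show trK K Kr (e j) = (t : M → K) from rfl, h3]
        rw [← Subalgebra.coe_val, map_sum]
        refine Finset.sum_congr rfl fun i _ => ?_
        funext x
        rw [Subalgebra.coe_val, Subalgebra.coe_smul, Pi.smul_apply, Pi.smul_apply,
          Algebra.smul_def, smul_eq_mul]
      · intro j i hi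
        show algebraMap R K _ = 0
        rw [hs3 _ (fun x k hk => trK_add_mem Kr (e j) x hk) i hi, map_zero]
    -- compare coefficients at `i`
    have h4 : ∑ i', ((Fintype.card Kr : K) * c i') • e i' =
        ∑ i', (∑ j, c j * ρ j i') • e i' := by
      have h5 : (Fintype.card Kr : K) • φ = ∑ i', ((Fintype.card Kr : K) * c i') • e i' := by
        rw [hφ, Finset.smul_sum]
        refine Finset.sum_congr rfl fun i' _ => ?_
        rw [smul_smul]
      rw [← h5, h1]
      simp_rw [hρ, Finset.smul_sum, smul_smul]
      rw [Finset.sum_comm]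
      refine Finset.sum_congr rfl fun i' _ => ?_
      rw [Finset.sum_smul]
    have h6 := Fintype.linearIndependent_iff.1 hind
      (fun i' => (Fintype.card Kr : K) * c i' - ∑ j, c j * ρ j i') (by
        simp only [sub_smul, Finset.sum_sub_distrib]
        rw [h4, sub_self]) i
    have h7 : ∑ j, c j * ρ j i = 0 := by
      refine Finset.sum_eq_zero fun j _ => ?_
      rw [hρ0 j i hi, mul_zero]
    rw [h7, sub_zero] at h6
    have hcard : (Fintype.card Kr : K) ≠ 0 := by
      have : Fintype.card Kr ≠ 0 := Fintype.card_ne_zero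
      exact_mod_cast this
    exact (mul_eq_zero.1 h6).resolve_left hcard
  -- main: rewrite `Φ` through the basis in the first variable
  obtain ⟨ι, _, a, b, hab⟩ := hF
  -- `B i := ∑_t (repr (a t) i) • b t`
  set B : Module.Free.ChooseBasisIndex R H → H' := fun i =>
    ∑ t, snf.bM.repr (a t) i • b t with hB
  have hFB : ∀ x y, Φ (x, y) = ∑ i, e i x * ((B i : H') : M' → K) y := by
    intro x y
    rw [hab x y]
    have h1 : ∀ t, ((a t : H) : M → K) x =
        ∑ i, algebraMap R K (snf.bM.repr (a t) i) * e i x := by
      intro t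
      have h3 : ((a t : H) : M → K) = ((∑ i, snf.bM.repr (a t) i • snf.bM i : H) : M → K) := by
        rw [snf.bM.sum_repr (a t)]
      rw [h3, ← Subalgebra.coe_val, map_sum, Finset.sum_apply]
      refine Finset.sum_congr rfl fun i _ => ?_
      rw [Subalgebra.coe_val, Subalgebra.coe_smul, Pi.smul_apply, Algebra.smul_def]
    simp_rw [h1, Finset.sum_mul]
    rw [Finset.sum_comm]
    refine Finset.sum_congr rfl fun i _ => ?_
    rw [hB]
    have h4 : ((∑ t, snf.bM.repr (a t) i • b t : H') : M' → K) y =
        ∑ t, algebraMap R K (snf.bM.repr (a t) i) * ((b t : H') : M' → K) y := by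
      rw [← Subalgebra.coe_val, map_sum, Finset.sum_apply]
      refine Finset.sum_congr rfl fun t _ => ?_
      rw [Subalgebra.coe_val, Subalgebra.coe_smul, Pi.smul_apply, Algebra.smul_def]
    rw [h4, Finset.mul_sum]
    refine Finset.sum_congr rfl fun t _ => ?_
    ring
  -- the coefficients `B i y` vanish off the range of `f`
  have hB0 : ∀ i, i ∉ Set.range snf.f → ∀ y, ((B i : H') : M' → K) y = 0 := by
    intro i hi y
    refine hINV (fun i => ((B i : H') : M' → K) y) ?_ i hi
    intro x k hk
    have h1 : ∀ z, (∑ i, ((B i : H') : M' → K) y • e i) z = Φ (z, y) := by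
      intro z
      rw [hFB z y, Finset.sum_apply]
      refine Finset.sum_congr rfl fun i _ => ?_
      rw [Pi.smul_apply, smul_eq_mul, mul_comm]
    rw [h1, h1, hinv x y k hk]
  refine ⟨Fin n, inferInstance, fun s => ⟨e (snf.f s), ⟨(snf.bM (snf.f s)).2, hs2 s⟩⟩,
    fun s => B (snf.f s), ?_⟩
  intro x y
  rw [hFB x y]
  have h1 : ∑ i, e i x * ((B i : H') : M' → K) y =
      ∑ i ∈ Finset.univ.map snf.f, e i x * ((B i : H') : M' → K) y := by
    symm
    refine Finset.sum_subset (Finset.subset_univ _) fun i _ hi => ?_
    rw [hB0 i (fun ⟨s, hs⟩ => hi (Finset.mem_map.2 ⟨s, Finset.mem_univ _, hs⟩)) y, mul_zero]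
  rw [h1, Finset.sum_map]

end Order

section Quot

variable {R : Type*} [CommRing R] [IsDomain R] [IsPrincipalIdealRing R]
variable {F : Type*} [Field F] [Algebra R F] [IsFractionRing R F]
variable {K : Type*} [Field K] [Algebra F K] [Algebra R K] [IsScalarTower R F K]
variable {G : Type*} [Group G] [MulSemiringAction G K]
variable {M : Type*} [AddCommGroup M] [Finite M]
variable {Q : Type*} [AddCommGroup Q] [Finite Q]
variable {act : G → M → M} {actQ : G → Q → Q} {H : Subalgebra R (M → K)}

theorem actQ_zero (h : IsStableOrder F act H) (π : M →+ Q)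
    (hπeq : ∀ (σ : G) (x : M), π (act σ x) = actQ σ (π x)) (σ : G) : actQ σ 0 = 0 := by
  rw [← map_zero π, ← hπeq, h.act_zero]

theorem ker_stable (h : IsStableOrder F act H) (π : M →+ Q)
    (hπeq : ∀ (σ : G) (x : M), π (act σ x) = actQ σ (π x))
    (σ : G) : ∀ k ∈ π.ker, act σ k ∈ π.ker := by
  intro k hk
  rw [AddMonoidHom.mem_ker] at hk ⊢
  rw [hπeq, hk, actQ_zero h π hπeq]

/-- **QUOTIENT.** the preimage order `{g | g ∘ π ∈ H}` of a stable order along an equivariant
surjection is a stable order. -/
theorem isStableOrder_comap [CharZero K] (h : IsStableOrder F act H)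
    (π : M →+ Q) (hπ : Function.Surjective π)
    (hπeq : ∀ (σ : G) (x : M), π (act σ x) = actQ σ (π x)) :
    IsStableOrder F actQ (H.comap (precomp R K π)) where
  fixed := h.fixed
  act_zero := actQ_zero h π hπeq
  equivariant := by
    intro g hg σ z
    obtain ⟨x, rfl⟩ := hπ z
    have h1 : precomp R K π g ∈ H := hg
    have := h.equivariant _ h1 σ x
    rw [← hπeq]
    exact this
  fg := by
    have := h.fg
    exact finite_comap H _ (precomp_injective R K hπ)
  sep := by
    intro z z' hne
    have : Fintype π.ker := Fintype.ofFinite _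
    obtain ⟨x, rfl⟩ := hπ z
    obtain ⟨y, rfl⟩ := hπ z'
    have hxy : x - y ∉ π.ker := by
      intro h
      rw [AddMonoidHom.mem_ker, map_sub, sub_eq_zero] at h
      exact hne h
    obtain ⟨f, hf, hfne⟩ := exists_trK_ne h π.ker hxy
    have hmem := trK_mem h π.ker (ker_stable h π hπeq) hf
    obtain ⟨g, hg⟩ := exists_desc hπ (trK K π.ker f)
      (fun x k hk => trK_add_mem π.ker f x hk)
    refine ⟨g, ?_, ?_⟩
    · show precomp R K π g ∈ H
      have : precomp R K π g = trK K π.ker f := funext hg
      rw [this]
      exact hmem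
    · rw [hg, hg]
      exact hfne
  delta := by
    rw [delta_iff_T2]
    intro g hg
    have hf : precomp R K π g ∈ H := hg
    set f : M → K := precomp R K π g with hfdef
    have hfinv : ∀ x, ∀ k ∈ π.ker, f (x + k) = f x := by
      intro x k hk
      rw [AddMonoidHom.mem_ker] at hk
      show g (π (x + k)) = g (π x)
      rw [map_add, hk, add_zero]
    have hK := ker_stable h π hπeq
    -- `Δ f ∈ H ⊗ H`
    have h0 : Rep2 H H (addHom R K M f) := by
      rw [← mem_T2_iff]
      exact (delta_iff_T2.1 h.delta) hf
    -- invariant in the first variable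
    have h1 : Rep2 (H ⊓ invAlg R K π.ker) H (addHom R K M f) := by
      refine rep2_inv h π.ker hK H h0 ?_
      intro x y k hk
      show f (x + k + y) = f (x + y)
      rw [add_right_comm, hfinv _ k hk]
    -- swap and do it again
    have h2 : Rep2 H (H ⊓ invAlg R K π.ker) (addHom R K M f) := by
      have := h1.swap
      have hsw : (fun p : M × M => addHom R K M f (p.2, p.1)) = addHom R K M f := by
        funext p
        show f (p.2 + p.1) = f (p.1 + p.2)
        rw [add_comm]
      rwa [hsw] at this
    have h3 : Rep2 (H ⊓ invAlg R K π.ker) (H ⊓ invAlg R K π.ker) (addHom R K M f) := by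
      refine rep2_inv h π.ker hK _ h2 ?_
      intro x y k hk
      show f (x + k + y) = f (x + y)
      rw [add_right_comm, hfinv _ k hk]
    -- descend
    obtain ⟨ι, _, a, b, hab⟩ := h3
    have hdesc : ∀ u : (H ⊓ invAlg R K π.ker : Subalgebra R (M → K)),
        ∃ g' : Q → K, g' ∈ H.comap (precomp R K π) ∧ ∀ x, g' (π x) = (u : M → K) x := by
      intro u
      obtain ⟨g', hg'⟩ := exists_desc hπ (u : M → K) (fun x k hk => u.2.2 x k hk)
      refine ⟨g', ?_, hg'⟩
      show precomp R K π g' ∈ H
      have : precomp R K π g' = (u : M → K) := funext hg'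
      rw [this]
      exact u.2.1
    choose d hd hd' using hdesc
    rw [Subalgebra.mem_comap, mem_T2_iff]
    refine ⟨ι, inferInstance, fun i => ⟨d (a i), hd (a i)⟩, fun i => ⟨d (b i), hd (b i)⟩, ?_⟩
    intro z z'
    obtain ⟨x, rfl⟩ := hπ z
    obtain ⟨y, rfl⟩ := hπ z'
    show g (π x + π y) = _
    rw [← map_add]
    have := hab x y
    rw [show addHom R K M f (x, y) = g (π (x + y)) from rfl] at this
    rw [this]
    refine Finset.sum_congr rfl fun i _ => ?_
    show _ = d (a i) (π x) * d (b i) (π y)
    rw [hd', hd']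

end Quot

end Fermat.Agent.GS.ClosureW
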