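/-
CELL-S (S33), node GS-CLOSURE-GENERIC, part 3 (helper5): **a LOCAL stable function order has no
subquotient of exponent `p` with trivial action** (`p` odd, `p` a prime element of the PID `R`):
the statement "(NU) ⟸ [LOC²]" of the CELL-S design (board 4918).

Frame of `GH/N0/Order.IsStableOrder` (`R` a PID, `F = Frac R ⊆ K` of characteristic `0`, `G` any
group acting on `K` with fixed field `F`, `H ⊆ Map(M, K)` a stable `R`-order), plus
`IsLocalAt 𝔫 H` (`f x - f 0 ∈ 𝔫`) for a set `𝔫 ⊆ K` with `𝔫 ∩ R ⊆ pR`.  Then for all subgroups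
`Y1, Y2 ≤ M` with `Y1` stable, `p • Y1 ⊆ Y2` and `act σ y - y ∈ Y2` on `Y1`: `Y1 ≤ Y2`
(`le_of_trivial_subquotient`).

Proof: restrict the order to `Y1` (`isStableOrder_map`), push it to `Z = Y1 / (Y2 ∩ Y1)`
(`isStableOrder_comap`), LOCAL is inherited; the action on `Z` is trivial, so all the values are
`G`-fixed and integral, hence in `R`: the order is an `R`-valued local Δ-stable separating function
order on a group killed by `p`, and the order-`p` lemma `GS/OrderP.subsingleton_of_sep` applies.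
-/
import Fermat.Agent.GS.ClosureW.Quot
import Fermat.Agent.GS.OrderP

set_option autoImplicit false
set_option linter.unusedSectionVars false
set_option linter.unusedVariables false

noncomputable section

namespace Fermat.Agent.GS.ClosureW

open Fermat.Agent.GH.N0 Module

/-- an odd natural number which is a prime element does not divide `2`. -/
theorem not_dvd_two_of_odd {R : Type*} [CommRing R] {p : ℕ} (hp : Prime (p : R)) (hodd : Odd p) :
    ¬ (p : R) ∣ 2 := by
  intro h2
  obtain ⟨k, hk⟩ := hodd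
  have h1 : (p : R) ∣ 1 := by
    have : (1 : R) = (p : R) - 2 * (k : R) := by
      rw [hk]
      push_cast
      ring
    rw [this]
    exact dvd_sub (dvd_refl _) (Dvd.dvd.mul_right h2 _)
  exact hp.not_isUnit (isUnit_of_dvd_one h1)

section ValR

variable {R K : Type*} [CommRing R] [Field K] [Algebra R K] {M : Type*}

/-- the `R`-valued functions whose image in `Map(M, K)` lies in `H`. -/
def valR (H : Subalgebra R (M → K)) : Subalgebra R (M → R) :=
  H.comap ((Algebra.ofId R K).compLeft M)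

theorem mem_valR {H : Subalgebra R (M → K)} {g : M → R} :
    g ∈ valR H ↔ (fun x => algebraMap R K (g x)) ∈ H := Iff.rfl

end ValR

section Frame

variable {R : Type*} [CommRing R] [IsDomain R] [IsPrincipalIdealRing R]
variable {F : Type*} [Field F] [Algebra R F] [IsFractionRing R F]
variable {K : Type*} [Field K] [Algebra F K] [Algebra R K] [IsScalarTower R F K]
variable {G : Type*} [Group G] [MulSemiringAction G K]
variable {M : Type*} [AddCommGroup M] [Finite M]
variable {act : G → M → M} {H : Subalgebra R (M → K)}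

/-- under a trivial action, all the values of the functions of a stable order lie in `R`. -/
theorem exists_algebraMap_eq_apply_of_trivial (h : IsStableOrder F act H)
    (htriv : ∀ σ x, act σ x = x) {f : M → K} (hf : f ∈ H) (x : M) :
    ∃ r : R, algebraMap R K r = f x := by
  apply exists_algebraMap_eq_of_fixed h
  · intro σ
    rw [← h.equivariant f hf σ x, htriv]
  · exact isIntegral_apply h hf x

/-- every function of a stable order with trivial action comes from `valR H`. -/
theorem exists_valR_of_trivial (h : IsStableOrder F act H)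
    (htriv : ∀ σ x, act σ x = x) {f : M → K} (hf : f ∈ H) :
    ∃ g : M → R, g ∈ valR H ∧ ∀ x, algebraMap R K (g x) = f x := by
  choose g hg using fun x => exists_algebraMap_eq_apply_of_trivial h htriv hf x
  refine ⟨g, ?_, hg⟩
  rw [mem_valR]
  have : (fun x => algebraMap R K (g x)) = f := funext hg
  rw [this]
  exact hf

/-- **a local stable order with trivial action on a group killed by the odd prime `p` of `R`
forces the group to be trivial.** -/
theorem subsingleton_of_trivial_of_local (h : IsStableOrder F act H)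
    (htriv : ∀ σ x, act σ x = x)
    (p : ℕ) (hp : Prime (p : R)) (hp2 : ¬ (p : R) ∣ 2) (hM : ∀ x : M, p • x = 0)
    (𝔫 : Set K) (hloc : IsLocalAt 𝔫 H) (h𝔫 : ∀ r : R, algebraMap R K r ∈ 𝔫 → (p : R) ∣ r) :
    Subsingleton M := by
  have hRK : Function.Injective (algebraMap R K) := algebraMap_injective_of_tower R F K
  have hΔ : OrderP.DeltaStable (valR H) := by
    intro g hg
    rw [mem_valR] at hg
    obtain ⟨n, a, b, hab⟩ := h.delta _ hg
    choose a' ha' ha'' using fun i => exists_valR_of_trivial h htriv (a i).2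
    choose b' hb' hb'' using fun i => exists_valR_of_trivial h htriv (b i).2
    refine ⟨n, fun i => ⟨a' i, ha' i⟩, fun i => ⟨b' i, hb' i⟩, fun x y => ?_⟩
    apply hRK
    rw [map_sum]
    simp only [map_mul]
    rw [hab x y]
    refine Finset.sum_congr rfl fun i _ => ?_
    rw [ha'' i x, hb'' i y]
  refine OrderP.subsingleton_of_sep hΔ p hp hp2 hM
    (OrderP.eq_zero_of_forall_pow_dvd hp.not_isUnit) ?_ ?_
  · intro g hg x
    rw [mem_valR] at hg
    apply h𝔫
    have := hloc _ hg x
    rw [map_sub]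
    exact this
  · intro x y hxy
    obtain ⟨f, hf, hne⟩ := h.sep x y hxy
    obtain ⟨g, hg, hgf⟩ := exists_valR_of_trivial h htriv hf
    refine ⟨g, hg, fun hcon => hne ?_⟩
    rw [← hgf x, ← hgf y, hcon]

/-- **(NU) ⟸ [LOC²].**  A LOCAL stable function order on `M` (over a PID `R` in which the odd
`p` is a prime element, `𝔫 ∩ R ⊆ pR`) has no subquotient `Y1 / Y2` killed by `p` on which `G`
acts trivially: such a pair satisfies `Y1 ≤ Y2`. -/
theorem le_of_trivial_subquotient [CharZero K] (h : IsStableOrder F act H)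
    (p : ℕ) (hp : Prime (p : R)) (hp2 : ¬ (p : R) ∣ 2)
    (𝔫 : Set K) (hloc : IsLocalAt 𝔫 H) (h𝔫 : ∀ r : R, algebraMap R K r ∈ 𝔫 → (p : R) ∣ r)
    (Y1 Y2 : AddSubgroup M) (hY1 : ∀ σ, ∀ y ∈ Y1, act σ y ∈ Y1)
    (hkill : ∀ y ∈ Y1, p • y ∈ Y2) (htriv : ∀ σ, ∀ y ∈ Y1, act σ y - y ∈ Y2) : Y1 ≤ Y2 := by
  -- restrict to `Y1`
  let actN : G → Y1 → Y1 := fun σ y => ⟨act σ y, hY1 σ y y.2⟩
  have hN : IsStableOrder F actN (H.map (precomp R K Y1.subtype)) :=
    isStableOrder_map h Y1.subtype Y1.subtype_injective (fun σ n => rfl)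
  have hNloc : IsLocalAt 𝔫 (H.map (precomp R K Y1.subtype)) := hloc.map Y1.subtype
  -- pass to the quotient
  let S : AddSubgroup Y1 := Y2.addSubgroupOf Y1
  let π : Y1 →+ Y1 ⧸ S := QuotientAddGroup.mk' S
  have hπ : Function.Surjective π := QuotientAddGroup.mk'_surjective S
  let actZ : G → Y1 ⧸ S → Y1 ⧸ S := fun _ z => z
  have hπeq : ∀ (σ : G) (y : Y1), π (actN σ y) = actZ σ (π y) := by
    intro σ y
    show (QuotientAddGroup.mk (actN σ y) : Y1 ⧸ S) = QuotientAddGroup.mk y
    rw [QuotientAddGroup.eq]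
    show (-(actN σ y) + y : Y1) ∈ Y2.addSubgroupOf Y1
    rw [AddSubgroup.mem_addSubgroupOf]
    have h1 := Y2.neg_mem (htriv σ y y.2)
    have h2 : ((-(actN σ y) + y : Y1) : M) = -(act σ y - y) := by
      push_cast
      show -(act σ y) + (y : M) = _
      abel
    rw [h2]
    exact h1
  have hZ := isStableOrder_comap hN π hπ hπeq
  have hZloc := hNloc.comap π hπ
  have hsub : Subsingleton (Y1 ⧸ S) := by
    refine subsingleton_of_trivial_of_local hZ (fun _ _ => rfl) p hp hp2 ?_ 𝔫 hZloc h𝔫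
    intro z
    obtain ⟨y, rfl⟩ := hπ z
    rw [← map_nsmul]
    show (QuotientAddGroup.mk (p • y) : Y1 ⧸ S) = 0
    rw [QuotientAddGroup.eq_zero_iff]
    show (p • y : Y1) ∈ Y2.addSubgroupOf Y1
    rw [AddSubgroup.mem_addSubgroupOf]
    push_cast
    exact hkill y y.2
  intro y hy
  have h1 : π ⟨y, hy⟩ = π 0 := Subsingleton.elim _ _
  rw [map_zero] at h1
  have h2 : (⟨y, hy⟩ : Y1) ∈ S := (QuotientAddGroup.eq_zero_iff _).mp h1
  exact AddSubgroup.mem_addSubgroupOf.mp h2

/-- **(NU)**, negative form: there is no pair `Y2 < Y1` of subgroups with `Y1` stable, `Y1 / Y2`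
killed by `p` and with trivial action. -/
theorem no_trivial_subquotient [CharZero K] (h : IsStableOrder F act H)
    (p : ℕ) (hp : Prime (p : R)) (hp2 : ¬ (p : R) ∣ 2)
    (𝔫 : Set K) (hloc : IsLocalAt 𝔫 H) (h𝔫 : ∀ r : R, algebraMap R K r ∈ 𝔫 → (p : R) ∣ r) :
    ¬ ∃ Y1 Y2 : AddSubgroup M, Y2 < Y1 ∧ (∀ σ, ∀ y ∈ Y1, act σ y ∈ Y1) ∧
      (∀ y ∈ Y1, p • y ∈ Y2) ∧ ∀ σ, ∀ y ∈ Y1, act σ y - y ∈ Y2 := by
  rintro ⟨Y1, Y2, hlt, hY1, hkill, htriv⟩
  exact not_le_of_gt hlt
    (le_of_trivial_subquotient h p hp hp2 𝔫 hloc h𝔫 Y1 Y2 hY1 hkill htriv)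

/-- the hypothesis `𝔫 ∩ R ⊆ pR` of `le_of_trivial_subquotient`, for `R` local with maximal ideal
`(p)` and `𝔫` a proper "ideal" of a subring `A ⊇ R` of `K`. -/
theorem dvd_of_algebraMap_mem {p : ℕ} (hR : ∀ r : R, ¬ IsUnit r → (p : R) ∣ r)
    (A : Subring K) (hRA : ∀ r : R, algebraMap R K r ∈ A)
    (𝔫 : AddSubgroup K) (h𝔫A : ∀ a ∈ A, ∀ c ∈ 𝔫, a * c ∈ 𝔫) (h1 : (1 : K) ∉ 𝔫) :
    ∀ r : R, algebraMap R K r ∈ (𝔫 : Set K) → (p : R) ∣ r := by
  intro r hr
  by_contra hnd
  have hu : IsUnit r := by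
    by_contra hnu
    exact hnd (hR r hnu)
  obtain ⟨s, hs⟩ := hu.exists_right_inv
  apply h1
  have h2 := h𝔫A _ (hRA s) _ hr
  rw [← map_mul, mul_comm, hs, map_one] at h2
  exact h2

end Frame

end Fermat.Agent.GS.ClosureW
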