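/-
CELL-S / GS-CLOSURE-GENERIC, part (2) QUOT (helper57): port of `GH/Closure` (trace + saturation +
quotient) to the GENERIC frame of `GH/N0/Order.IsStableOrder` (helper5):
`R` a PID, `F = Frac R ⊆ K`, a group `G` acting on the field `K` with `K^G ⊆ F`.

This file: vocabulary (`pre`, `Rep2`, `addPull`) and the two frame facts
(fixed + integral ⟹ in `R`; values of a finite order are integral).
-/
import Mathlib
import Fermat.Agent.GH.N0.Order

set_option autoImplicit false
set_option linter.unusedSectionVars false
set_option linter.unusedVariables false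

noncomputable section

namespace Fermat.Agent.GS.ClosureW.QuotG

open Fermat.Agent.GH.N0

section Pre

variable (R K : Type*) [CommSemiring R] [Semiring K] [Algebra R K] {X Y : Type*}

/-- precomposition with `φ : X → Y` as an algebra hom `(Y → K) → (X → K)`. -/
def pre (φ : X → Y) : (Y → K) →ₐ[R] (X → K) :=
  AlgHom.pi (fun x => Pi.evalAlgHom R (fun _ => K) (φ x))

@[simp]
theorem pre_apply (φ : X → Y) (f : Y → K) (x : X) : pre R K φ f x = f (φ x) := rfl

theorem pre_injective {φ : X → Y} (hφ : Function.Surjective φ) :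
    Function.Injective (pre R K φ) := by
  intro f g hfg
  funext y
  obtain ⟨x, rfl⟩ := hφ y
  exact congrFun hfg x

end Pre

section Rep

variable {R K : Type*} [CommRing R] [Field K] [Algebra R K] {M M' : Type*}

/-- `F` is a finite sum of pure tensors `a i ⊗ b i`, `a i ∈ H`, `b i ∈ H'`. -/
def Rep2 (H : Subalgebra R (M → K)) (H' : Subalgebra R (M' → K)) (F : M × M' → K) : Prop :=
  ∃ (ι : Type) (_ : Fintype ι) (a : ι → H) (b : ι → H'),
    ∀ x y, F (x, y) = ∑ i, ((a i : M → K) x) * ((b i : M' → K) y)

variable {H : Subalgebra R (M → K)} {H' : Subalgebra R (M' → K)}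

theorem rep2_iff_fin {F : M × M' → K} :
    Rep2 H H' F ↔ ∃ (n : ℕ) (a : Fin n → H) (b : Fin n → H'),
      ∀ x y, F (x, y) = ∑ i, ((a i : M → K) x) * ((b i : M' → K) y) := by
  constructor
  · rintro ⟨ι, _, a, b, h⟩
    refine ⟨Fintype.card ι, a ∘ (Fintype.equivFin ι).symm, b ∘ (Fintype.equivFin ι).symm, ?_⟩
    intro x y
    rw [h x y]
    exact (Equiv.sum_comp (Fintype.equivFin ι).symm
      (fun i => ((a i : M → K) x) * ((b i : M' → K) y))).symm
  · rintro ⟨n, a, b, h⟩
    exact ⟨Fin n, inferInstance, a, b, h⟩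

theorem Rep2.swap {F : M × M' → K} (h : Rep2 H H' F) :
    Rep2 H' H (fun p => F (p.2, p.1)) := by
  obtain ⟨ι, _, a, b, hab⟩ := h
  refine ⟨ι, inferInstance, b, a, fun x y => ?_⟩
  show F (y, x) = _
  rw [hab y x]
  exact Finset.sum_congr rfl fun i _ => mul_comm _ _

end Rep

section Frame

variable {R : Type*} [CommRing R] [IsDomain R] [IsPrincipalIdealRing R]
variable {F : Type*} [Field F] [Algebra R F] [IsFractionRing R F]
variable {K : Type*} [Field K] [Algebra F K] [Algebra R K] [IsScalarTower R F K]
variable {G : Type*} [Group G] [MulSemiringAction G K]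
variable {M : Type*} [AddCommGroup M]
variable {act : G → M → M} {H : Subalgebra R (M → K)}

/-- a `G`-fixed element of `K` which is integral over `R` lies in `R`. -/
theorem exists_algebraMap_eq_of_fixed_of_isIntegral (h : IsStableOrder F act H) {c : K}
    (hfix : ∀ σ : G, σ • c = c) (hint : IsIntegral R c) : ∃ r : R, algebraMap R K r = c := by
  obtain ⟨q, hq⟩ := h.fixed c hfix
  rw [← hq] at hint
  have hq' : IsIntegral R q := (isIntegral_algebraMap_iff (algebraMap F K).injective).mp hint
  obtain ⟨r, hr⟩ := IsIntegrallyClosed.isIntegral_iff.mp hq'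
  exact ⟨r, by rw [IsScalarTower.algebraMap_apply R F K, hr, hq]⟩

/-- the values of the functions of a finite order are integral over `R`. -/
theorem isIntegral_apply (h : IsStableOrder F act H) {f : M → K} (hf : f ∈ H) (x : M) :
    IsIntegral R (f x) := by
  have := h.fg
  exact (IsIntegral.of_finite R (⟨f, hf⟩ : H)).map (evPt H.val x)

theorem algebraMap_ne_zero (h : IsStableOrder F act H) {r : R} (hr : r ≠ 0) :
    algebraMap R K r ≠ 0 := fun h0 =>
  hr ((injective_iff_map_eq_zero _).mp (algebraMap_injective_of_tower R F K) r h0)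

end Frame

end Fermat.Agent.GS.ClosureW.QuotG
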