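/-
CELL-S / GS-CLOSURE-GENERIC, part (2) QUOT (helper57), generic frame of `GH/N0/Order`:
the trace over a `G`-stable finite subgroup `Kr ≤ M` maps a stable order `H` into `H`; Dedekind
separation of the fibre sums; descent of `Kr`-invariant functions along a surjection.
-/
import Fermat.Agent.GS.ClosureW.QuotGTools

set_option autoImplicit false
set_option linter.unusedSectionVars false
set_option linter.unusedVariables false

noncomputable section

namespace Fermat.Agent.GS.ClosureW.QuotG

open Fermat.Agent.GH.N0

section Trace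

variable {K : Type*} [Field K] {M : Type*} [AddCommGroup M]

/-- the trace over a finite subgroup, `f ↦ (x ↦ ∑_{k ∈ Kr} f (x + k))`. -/
def trK (Kr : AddSubgroup M) [Fintype Kr] : (M → K) →ₗ[K] (M → K) where
  toFun f := fun x => ∑ k : Kr, f (x + k)
  map_add' f g := by
    funext x
    simp [Finset.sum_add_distrib]
  map_smul' c f := by
    funext x
    simp [Finset.mul_sum]

theorem trK_apply (Kr : AddSubgroup M) [Fintype Kr] (f : M → K) (x : M) :
    trK Kr f x = ∑ k : Kr, f (x + k) := rfl

theorem trK_add_mem (Kr : AddSubgroup M) [Fintype Kr] (f : M → K) (x : M) {k : M}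
    (hk : k ∈ Kr) : trK Kr f (x + k) = trK Kr f x := by
  rw [trK_apply, trK_apply]
  refine Fintype.sum_equiv (Equiv.addLeft (⟨k, hk⟩ : Kr)) _ _ fun k' => ?_
  simp [add_assoc]

theorem trK_of_inv (Kr : AddSubgroup M) [Fintype Kr] {f : M → K}
    (hf : ∀ x, ∀ k ∈ Kr, f (x + k) = f x) (x : M) :
    trK Kr f x = (Fintype.card Kr : K) * f x := by
  rw [trK_apply, Finset.sum_congr rfl fun (k : Kr) _ => hf x (k : M) k.2]
  simp

end Trace

section Order

variable {R : Type*} [CommRing R] [IsDomain R] [IsPrincipalIdealRing R]
variable {F : Type*} [Field F] [Algebra R F] [IsFractionRing R F]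
variable {K : Type*} [Field K] [Algebra F K] [Algebra R K] [IsScalarTower R F K]
variable {G : Type*} [Group G] [MulSemiringAction G K]
variable {M : Type*} [AddCommGroup M] [Finite M]
variable {act : G → M → M} {H : Subalgebra R (M → K)}

/-- **the trace maps `H` into `H`.** -/
theorem trK_mem (h : IsStableOrder F act H) (Kr : AddSubgroup M) [Fintype Kr]
    (hK : ∀ (σ : G), ∀ k ∈ Kr, act σ k ∈ Kr) {f : M → K} (hf : f ∈ H) : trK Kr f ∈ H := by
  obtain ⟨n, a, b, hab⟩ := h.delta f hf
  have hc : ∀ i, ∃ r : R, algebraMap R K r = ∑ k : Kr, (b i : M → K) k := by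
    intro i
    apply exists_algebraMap_eq_of_fixed_of_isIntegral h
    · intro σ
      rw [Finset.smul_sum]
      have hbij : Function.Bijective (fun k : Kr => (⟨act σ k, hK σ k k.2⟩ : Kr)) := by
        apply Finite.injective_iff_bijective.mp
        intro k k' hkk
        exact Subtype.ext (h.act_injective σ (congrArg Subtype.val hkk))
      rw [← Function.Bijective.sum_comp hbij (fun k : Kr => (b i : M → K) k)]
      refine Finset.sum_congr rfl fun k _ => ?_
      exact (h.equivariant _ (b i).2 σ k).symm
    · exact IsIntegral.sum _ fun k _ => isIntegral_apply h (b i).2 k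
  choose r hr using hc
  have : trK Kr f = ∑ i, r i • (a i : M → K) := by
    funext x
    rw [trK_apply, Finset.sum_apply]
    simp only [hab, Pi.smul_apply, Algebra.smul_def, hr]
    rw [Finset.sum_comm]
    refine Finset.sum_congr rfl fun i _ => ?_
    rw [Finset.sum_mul]
    refine Finset.sum_congr rfl fun k _ => ?_
    ring
  rw [this]
  exact Subalgebra.sum_mem _ fun i _ => Subalgebra.smul_mem _ (a i).2 _

/-- **Dedekind separation**: fibre sums over two different cosets of `Kr` are separated by `H`. -/
theorem exists_trK_ne (h : IsStableOrder F act H) (Kr : AddSubgroup M) [Fintype Kr]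
    {x y : M} (hxy : x - y ∉ Kr) : ∃ f ∈ H, trK Kr f x ≠ trK Kr f y := by
  classical
  by_contra hcon
  push Not at hcon
  let χ : M → (H →* K) := fun u =>
    { toFun := fun g => (g : M → K) u
      map_one' := rfl
      map_mul' := fun _ _ => rfl }
  have hχ : Function.Injective χ := by
    intro u v huv
    by_contra hne
    obtain ⟨f, hf, hfuv⟩ := h.sep u v hne
    exact hfuv (DFunLike.congr_fun huv ⟨f, hf⟩)
  have hli := (linearIndependent_monoidHom H K).comp χ hχ
  let g : Kr ⊕ Kr → M := Sum.elim (fun k => x + k) (fun k => y + k)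
  have hg : Function.Injective g := by
    rintro (k | k) (k' | k') hh
    · have h' : x + (k : M) = x + k' := hh
      rw [Subtype.ext (add_left_cancel h')]
    · exfalso
      have h' : x + (k : M) = y + k' := hh
      apply hxy
      have : x - y = (k' : M) - k := by
        rw [sub_eq_sub_iff_add_eq_add, h', add_comm]
      rw [this]
      exact Kr.sub_mem k'.2 k.2
    · exfalso
      have h' : y + (k : M) = x + k' := hh
      apply hxy
      have : x - y = (k : M) - k' := by
        rw [sub_eq_sub_iff_add_eq_add, ← h', add_comm]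
      rw [this]
      exact Kr.sub_mem k.2 k'.2
    · have h' : y + (k : M) = y + k' := hh
      rw [Subtype.ext (add_left_cancel h')]
  have hli2 := hli.comp g hg
  have hsum : ∑ j : Kr ⊕ Kr, (Sum.elim (fun _ => (1 : K)) (fun _ => (-1 : K)) j) •
      (((χ (g j) : H →* K) : H → K)) = 0 := by
    funext u
    rw [Fintype.sum_sum_type]
    simp only [Sum.elim_inl, Sum.elim_inr, one_smul, neg_smul, Finset.sum_neg_distrib,
      Pi.add_apply, Pi.neg_apply, Finset.sum_apply, Pi.zero_apply]
    have := hcon u u.2
    rw [trK_apply, trK_apply] at this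
    show ∑ k : Kr, (u : M → K) (x + k) + -∑ k : Kr, (u : M → K) (y + k) = 0
    rw [this, add_neg_cancel]
  have h0 := Fintype.linearIndependent_iff.1 hli2 _ hsum (Sum.inl 0)
  simp at h0

end Order

section Desc

variable {K : Type*} {M Q : Type*} [AddCommGroup M] [AddCommGroup Q]

/-- a function invariant under the kernel of a surjection descends. -/
theorem exists_desc {π : M →+ Q} (hπ : Function.Surjective π) (F : M → K)
    (hF : ∀ x, ∀ k ∈ π.ker, F (x + k) = F x) : ∃ g : Q → K, ∀ x, g (π x) = F x := by
  refine ⟨fun z => F (Function.surjInv hπ z), fun x => ?_⟩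
  have h1 : π (Function.surjInv hπ (π x)) = π x := Function.surjInv_eq hπ (π x)
  have hk : Function.surjInv hπ (π x) - x ∈ π.ker := by
    rw [AddMonoidHom.mem_ker, map_sub, h1, sub_self]
  have := hF x _ hk
  rw [add_sub_cancel] at this
  exact this

end Desc

end Fermat.Agent.GS.ClosureW.QuotG
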