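/-
CELL-S / GS-CLOSURE-GENERIC, part (2) QUOT (helper57), generic frame of `GH/N0/Order`:
stable orders pass to QUOTIENTS `π : M ↠ Q` by `G`-stable subgroups: `H'' := {g | g ∘ π ∈ H}`.
Separation by the trace + Dedekind; Δ-stability by SATURATION: the `Kr`-invariant part of `H` is a
saturated submodule of the finite free `R`-module `H` (`R` a PID), an adapted (Smith) basis is
`K`-linearly independent as a family of functions (helper5's descent), so a two-variable sum of
pure tensors which is `Kr`-invariant in the first variable only involves the invariant basis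
vectors.

MAIN EXPORT: `quotG`.
-/
import Fermat.Agent.GS.ClosureW.QuotGTrace

set_option autoImplicit false
set_option linter.unusedSectionVars false
set_option linter.unusedVariables false

noncomputable section

namespace Fermat.Agent.GS.ClosureW.QuotG

open Fermat.Agent.GH.N0 Module

section Inv

variable (R : Type*) {K : Type*} [CommRing R] [Field K] [Algebra R K] {M : Type*} [AddCommGroup M]

/-- the `Kr`-invariant functions, as a subalgebra. -/
def invAlg (Kr : AddSubgroup M) : Subalgebra R (M → K) where
  carrier := {f | ∀ x, ∀ k ∈ Kr, f (x + k) = f x}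
  mul_mem' := by
    intro f g hf hg x k hk
    rw [Pi.mul_apply, Pi.mul_apply, hf x k hk, hg x k hk]
  add_mem' := by
    intro f g hf hg x k hk
    rw [Pi.add_apply, Pi.add_apply, hf x k hk, hg x k hk]
  algebraMap_mem' := by
    intro r x k hk
    rfl

theorem mem_invAlg {Kr : AddSubgroup M} {f : M → K} :
    f ∈ invAlg R Kr ↔ ∀ x, ∀ k ∈ Kr, f (x + k) = f x := Iff.rfl

/-- `f ↦ ((x, y) ↦ f (x + y))` as an algebra hom. -/
def addPull (K : Type*) [Field K] [Algebra R K] (M : Type*) [AddCommGroup M] :
    (M → K) →ₐ[R] (M × M → K) :=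
  pre R K (fun p : M × M => p.1 + p.2)

@[simp]
theorem addPull_apply (f : M → K) (x y : M) : addPull R K M f (x, y) = f (x + y) := rfl

end Inv

section Key

variable {R : Type*} [CommRing R] [IsDomain R] [IsPrincipalIdealRing R]
variable {F : Type*} [Field F] [Algebra R F] [IsFractionRing R F]
variable {K : Type*} [Field K] [Algebra F K] [Algebra R K] [IsScalarTower R F K]
variable {G : Type*} [Group G] [MulSemiringAction G K]
variable {M : Type*} [AddCommGroup M] [Finite M]
variable {act : G → M → M} {H : Subalgebra R (M → K)}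
variable [CharZero K]

/-- **KEY (saturation).**  A sum of pure tensors in `H ⊗ H'` which is `Kr`-invariant in the first
variable is a sum of pure tensors in `(H ⊓ invariants) ⊗ H'`. -/
theorem rep2_inv (h : IsStableOrder F act H)
    (Kr : AddSubgroup M) (hK : ∀ (σ : G), ∀ k ∈ Kr, act σ k ∈ Kr)
    {M' : Type*} (H' : Subalgebra R (M' → K)) {Φ : M × M' → K}
    (hΦ : Rep2 H H' Φ) (hinv : ∀ x y, ∀ k ∈ Kr, Φ (x + k, y) = Φ (x, y)) :
    Rep2 (H ⊓ invAlg R Kr) H' Φ := by
  classical
  have : Fintype Kr := Fintype.ofFinite Kr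
  have := h.fg
  have := h.isTorsionFree
  have := h.free
  -- the invariant part as a submodule of `H`
  let 𝓘 : Submodule R H :=
    Submodule.comap (Subalgebra.val H).toLinearMap (Subalgebra.toSubmodule (invAlg R Kr))
  have h𝓘 : ∀ u : H, u ∈ 𝓘 ↔ (u : M → K) ∈ invAlg R Kr := fun u => Iff.rfl
  obtain ⟨n, snf⟩ := Submodule.smithNormalForm (Module.Free.chooseBasis R H) 𝓘
  set e : Module.Free.ChooseBasisIndex R H → (M → K) := fun i => ((snf.bM i : H) : M → K)
    with he
  -- `K`-linear independence of the basis as functions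
  have hind : LinearIndependent K e := h.linearIndependent_coe snf.bM
  -- the basis vectors in the range of `f` are invariant
  have hs2 : ∀ s : Fin n, e (snf.f s) ∈ invAlg R Kr := by
    intro s
    have h1 : (snf.bN s : H) ∈ 𝓘 := (snf.bN s).2
    rw [snf.snf s, h𝓘] at h1
    have ha : snf.a s ≠ 0 := by
      intro h0
      have h2 : (snf.bN s : H) = 0 := by rw [snf.snf s, h0, zero_smul]
      have h3 : snf.bN s = 0 := Subtype.ext h2
      exact snf.bN.ne_zero s h3
    have ha1 : algebraMap R K (snf.a s) ≠ 0 := algebraMap_ne_zero h ha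
    intro x k hk
    have h4 := h1 x k hk
    simp only [Algebra.smul_def] at h4
    exact mul_left_cancel₀ ha1 h4
  -- coordinates of invariant elements vanish off the range of `f`
  have hs3 : ∀ u : H, (u : M → K) ∈ invAlg R Kr → ∀ i, i ∉ Set.range snf.f →
      snf.bM.repr u i = 0 := by
    intro u hu i hi
    exact snf.repr_eq_zero_of_notMem_range ⟨u, (h𝓘 u).2 hu⟩ hi
  -- (INV): an invariant `K`-combination of the basis only involves the range of `f`
  have hINV : ∀ c : Module.Free.ChooseBasisIndex R H → K,
      (∑ i, c i • e i) ∈ invAlg R Kr → ∀ i, i ∉ Set.range snf.f → c i = 0 := by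
    intro c hc i hi
    set φ : M → K := ∑ i, c i • e i with hφ
    -- `card • φ = trK φ = ∑ c_j • trK e_j`
    have h1 : (Fintype.card Kr : K) • φ = ∑ j, c j • trK Kr (e j) := by
      have : trK Kr φ = (Fintype.card Kr : K) • φ := by
        funext x
        rw [trK_of_inv Kr hc x]
        rfl
      rw [← this, hφ, map_sum]
      refine Finset.sum_congr rfl fun j _ => ?_
      rw [map_smul]
    -- expand `trK e_j` in the basis
    obtain ⟨ρ, hρ, hρ0⟩ : ∃ ρ : Module.Free.ChooseBasisIndex R H →
        Module.Free.ChooseBasisIndex R H → K,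
        (∀ j, trK Kr (e j) = ∑ i, ρ j i • e i) ∧ ∀ j i, i ∉ Set.range snf.f → ρ j i = 0 := by
      refine ⟨fun j i => algebraMap R K
        (snf.bM.repr ⟨trK Kr (e j), trK_mem h Kr hK (snf.bM j).2⟩ i), ?_, ?_⟩
      · intro j
        set t : H := ⟨trK Kr (e j), trK_mem h Kr hK (snf.bM j).2⟩ with ht
        have h3 : (t : M → K) = ((∑ i, snf.bM.repr t i • snf.bM i : H) : M → K) := by
          rw [snf.bM.sum_repr t]
        rw [show trK Kr (e j) = (t : M → K) from rfl, h3]
        rw [← Subalgebra.coe_val, map_sum]
        refine Finset.sum_congr rfl fun i _ => ?_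
        funext x
        simp [he, Algebra.smul_def]
        left
        rfl
      · intro j i hi
        show algebraMap R K _ = 0
        rw [hs3 _ (fun x k hk => trK_add_mem Kr (e j) x hk) i hi, map_zero]
    -- compare coefficients at `i`
    have h4 : ∑ i', ((Fintype.card Kr : K) * c i') • e i' =
        ∑ i', (∑ j, c j * ρ j i') • e i' := by
      have h5 : (Fintype.card Kr : K) • φ = ∑ i', ((Fintype.card Kr : K) * c i') • e i' := by
        rw [hφ, Finset.smul_sum]
        refine Finset.sum_congr rfl fun i' _ => ?_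
        rw [smul_smul]
      rw [← h5, h1]
      simp_rw [hρ, Finset.smul_sum, smul_smul]
      rw [Finset.sum_comm]
      refine Finset.sum_congr rfl fun i' _ => ?_
      rw [Finset.sum_smul]
    have h6 := Fintype.linearIndependent_iff.1 hind
      (fun i' => (Fintype.card Kr : K) * c i' - ∑ j, c j * ρ j i') (by
        simp only [sub_smul, Finset.sum_sub_distrib]
        rw [h4, sub_self]) i
    have h7 : ∑ j, c j * ρ j i = 0 := by
      refine Finset.sum_eq_zero fun j _ => ?_
      rw [hρ0 j i hi, mul_zero]
    rw [h7, sub_zero] at h6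
    have hcard : (Fintype.card Kr : K) ≠ 0 := by
      have : Fintype.card Kr ≠ 0 := Fintype.card_ne_zero
      exact_mod_cast this
    exact (mul_eq_zero.1 h6).resolve_left hcard
  -- main: rewrite `Φ` through the basis in the first variable
  obtain ⟨ι, _, a, b, hab⟩ := hΦ
  -- `B i := ∑_t (repr (a t) i) • b t`
  set B : Module.Free.ChooseBasisIndex R H → H' := fun i =>
    ∑ t, snf.bM.repr (a t) i • b t with hB
  have hFB : ∀ x y, Φ (x, y) = ∑ i, e i x * ((B i : H') : M' → K) y := by
    intro x y
    rw [hab x y]
    have h1 : ∀ t, ((a t : H) : M → K) x =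
        ∑ i, algebraMap R K (snf.bM.repr (a t) i) * e i x := by
      intro t
      have h3 : ((a t : H) : M → K) = ((∑ i, snf.bM.repr (a t) i • snf.bM i : H) : M → K) := by
        rw [snf.bM.sum_repr (a t)]
      rw [h3, ← Subalgebra.coe_val, map_sum, Finset.sum_apply]
      refine Finset.sum_congr rfl fun i _ => ?_
      simp [he, Algebra.smul_def]
    simp_rw [h1, Finset.sum_mul]
    rw [Finset.sum_comm]
    refine Finset.sum_congr rfl fun i _ => ?_
    rw [hB]
    have h4 : ((∑ t, snf.bM.repr (a t) i • b t : H') : M' → K) y =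
        ∑ t, algebraMap R K (snf.bM.repr (a t) i) * ((b t : H') : M' → K) y := by
      rw [← Subalgebra.coe_val, map_sum, Finset.sum_apply]
      refine Finset.sum_congr rfl fun t _ => ?_
      simp [Algebra.smul_def]
    rw [h4, Finset.mul_sum]
    refine Finset.sum_congr rfl fun t _ => ?_
    ring
  -- the coefficients `B i y` vanish off the range of `f`
  have hB0 : ∀ i, i ∉ Set.range snf.f → ∀ y, ((B i : H') : M' → K) y = 0 := by
    intro i hi y
    refine hINV (fun i => ((B i : H') : M' → K) y) ?_ i hi
    intro x k hk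
    have h1 : ∀ z, (∑ i, ((B i : H') : M' → K) y • e i) z = Φ (z, y) := by
      intro z
      rw [hFB z y, Finset.sum_apply]
      refine Finset.sum_congr rfl fun i _ => ?_
      simp [mul_comm]
    rw [h1, h1, hinv x y k hk]
  refine ⟨Fin n, inferInstance, fun s => ⟨e (snf.f s), ⟨(snf.bM (snf.f s)).2, hs2 s⟩⟩,
    fun s => B (snf.f s), ?_⟩
  intro x y
  rw [hFB x y]
  have h1 : ∑ i, e i x * ((B i : H') : M' → K) y =
      ∑ i ∈ Finset.univ.map snf.f, e i x * ((B i : H') : M' → K) y := by
    symm
    refine Finset.sum_subset (Finset.subset_univ _) fun i _ hi => ?_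
    rw [hB0 i (fun ⟨s, hs⟩ => hi (Finset.mem_map.2 ⟨s, Finset.mem_univ _, hs⟩)) y, mul_zero]
  rw [h1, Finset.sum_map]

end Key

section Quot

variable {R : Type*} [CommRing R] [IsDomain R] [IsPrincipalIdealRing R]
variable {F : Type*} [Field F] [Algebra R F] [IsFractionRing R F]
variable {K : Type*} [Field K] [Algebra F K] [Algebra R K] [IsScalarTower R F K]
variable {G : Type*} [Group G] [MulSemiringAction G K]
variable {M Q : Type*} [AddCommGroup M] [Finite M] [AddCommGroup Q]
variable {act : G → M → M} {actQ : G → Q → Q} {H : Subalgebra R (M → K)}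
variable [CharZero K]

theorem ker_stable (h : IsStableOrder F act H) (π : M →+ Q)
    (hπeq : ∀ (σ : G) (x : M), π (act σ x) = actQ σ (π x)) (σ : G) :
    ∀ k ∈ π.ker, act σ k ∈ π.ker := by
  intro k hk
  rw [AddMonoidHom.mem_ker] at hk ⊢
  have h0 : actQ σ 0 = 0 := by
    have := hπeq σ 0
    rw [h.act_zero, map_zero] at this
    exact this.symm
  rw [hπeq, hk, h0]

theorem finite_comap (h : IsStableOrder F act H) (π : M →+ Q) (hπ : Function.Surjective π) :
    Module.Finite R (H.comap (pre R K π)) := by
  have := h.fg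
  have : IsNoetherian R H := isNoetherian_of_isNoetherianRing_of_finite R H
  let g : ↥(H.comap (pre R K π)) →ₗ[R] H :=
    LinearMap.codRestrict (Subalgebra.toSubmodule H)
      ((pre R K π).toLinearMap ∘ₗ (Subalgebra.val (H.comap (pre R K π))).toLinearMap)
      (fun u => u.2)
  refine Module.Finite.of_injective g ?_
  intro a b hab
  apply Subtype.ext
  apply pre_injective R K hπ
  exact congrArg Subtype.val hab

/-- **QUOTIENT** in the generic frame: a stable order on `M` induces a stable order on every
equivariant quotient `π : M ↠ Q`. -/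
theorem quotG (h : IsStableOrder F act H) (π : M →+ Q) (hπ : Function.Surjective π)
    (hπeq : ∀ (σ : G) (x : M), π (act σ x) = actQ σ (π x)) :
    IsStableOrder F actQ (H.comap (pre R K π)) where
  fixed := h.fixed
  act_zero := by
    intro σ
    have := hπeq σ 0
    rw [h.act_zero, map_zero] at this
    exact this.symm
  equivariant := by
    intro g hg σ z
    obtain ⟨x, rfl⟩ := hπ z
    have h1 : pre R K π g ∈ H := hg
    have := h.equivariant _ h1 σ x
    rw [← hπeq]
    exact this
  fg := finite_comap h π hπ
  sep := by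
    intro z z' hne
    have : Fintype π.ker := Fintype.ofFinite _
    obtain ⟨x, rfl⟩ := hπ z
    obtain ⟨y, rfl⟩ := hπ z'
    have hxy : x - y ∉ π.ker := by
      intro hh
      rw [AddMonoidHom.mem_ker, map_sub, sub_eq_zero] at hh
      exact hne hh
    obtain ⟨f, hf, hfne⟩ := exists_trK_ne h π.ker hxy
    have hmem := trK_mem h π.ker (ker_stable h π hπeq) hf
    obtain ⟨g, hg⟩ := exists_desc hπ (trK π.ker f)
      (fun x k hk => trK_add_mem π.ker f x hk)
    refine ⟨g, ?_, ?_⟩
    · show pre R K π g ∈ H
      have : pre R K π g = trK π.ker f := funext hg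
      rw [this]
      exact hmem
    · rw [hg, hg]
      exact hfne
  delta := by
    intro g hg
    have hf : pre R K π g ∈ H := hg
    set f : M → K := pre R K π g with hfdef
    have hfinv : ∀ x, ∀ k ∈ π.ker, f (x + k) = f x := by
      intro x k hk
      rw [AddMonoidHom.mem_ker] at hk
      show g (π (x + k)) = g (π x)
      rw [map_add, hk, add_zero]
    have hK := ker_stable h π hπeq
    -- `Δ f ∈ H ⊗ H`
    have h0 : Rep2 H H (addPull R K M f) := by
      rw [rep2_iff_fin]
      obtain ⟨n, a, b, hab⟩ := h.delta f hf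
      exact ⟨n, a, b, fun x y => hab x y⟩
    -- invariant in the first variable
    have h1 : Rep2 (H ⊓ invAlg R π.ker) H (addPull R K M f) := by
      refine rep2_inv h π.ker hK H h0 ?_
      intro x y k hk
      show f (x + k + y) = f (x + y)
      rw [add_right_comm, hfinv _ k hk]
    -- swap and do it again
    have h2 : Rep2 H (H ⊓ invAlg R π.ker) (addPull R K M f) := by
      have := h1.swap
      have hsw : (fun p : M × M => addPull R K M f (p.2, p.1)) = addPull R K M f := by
        funext p
        show f (p.2 + p.1) = f (p.1 + p.2)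
        rw [add_comm]
      rwa [hsw] at this
    have h3 : Rep2 (H ⊓ invAlg R π.ker) (H ⊓ invAlg R π.ker) (addPull R K M f) := by
      refine rep2_inv h π.ker hK _ h2 ?_
      intro x y k hk
      show f (x + k + y) = f (x + y)
      rw [add_right_comm, hfinv _ k hk]
    -- descend
    obtain ⟨n, a, b, hab⟩ := rep2_iff_fin.1 h3
    have hdesc : ∀ u : (H ⊓ invAlg R π.ker : Subalgebra R (M → K)),
        ∃ g' : Q → K, g' ∈ H.comap (pre R K π) ∧ ∀ x, g' (π x) = (u : M → K) x := by
      intro u
      obtain ⟨g', hg'⟩ := exists_desc hπ (u : M → K) (fun x k hk => u.2.2 x k hk)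
      refine ⟨g', ?_, hg'⟩
      show pre R K π g' ∈ H
      have : pre R K π g' = (u : M → K) := funext hg'
      rw [this]
      exact u.2.1
    choose d hd hd' using hdesc
    refine ⟨n, fun i => ⟨d (a i), hd (a i)⟩, fun i => ⟨d (b i), hd (b i)⟩, ?_⟩
    intro z z'
    obtain ⟨x, rfl⟩ := hπ z
    obtain ⟨y, rfl⟩ := hπ z'
    rw [← map_add]
    have := hab x y
    rw [show addPull R K M f (x, y) = g (π (x + y)) from rfl] at this
    rw [this]
    refine Finset.sum_congr rfl fun i _ => ?_
    show _ = d (a i) (π x) * d (b i) (π y)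
    rw [hd', hd']

end Quot

end Fermat.Agent.GS.ClosureW.QuotG
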